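import Fermat.Prelude.Def_ModularCurve_ReductionModL

/-!
# S18: reduction to PRIME `m` at the top level (helper694)

`reductionModL A N` is an additive group homomorphism, so the frozen statement S18 for all `m`
prime to `ℓ` follows from the case where `m` is a prime number different from `ℓ`
(strong induction on `m`: `z' := (m / p) • z` is killed by `p` and has zero reduction).

Consequence for the row: every node below the top (CORE, d2, GLUE, ALG) is only needed for
PRIME `m`; no induction / rescaling is needed inside ALG.
-/

set_option autoImplicit false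

namespace Fermat.Agent.S18.H694

/-- Abstract form: for an additive hom `red`, "`p`-torsion with zero reduction vanishes for all
primes `p ≠ ℓ`" implies the same for every `m` prime to `ℓ`. -/
theorem eq_zero_of_prime_case {G H : Type*} [AddCommGroup G] [AddCommGroup H] (red : G →+ H)
    {ℓ : ℕ} (hℓ : ℓ.Prime)
    (hprime : ∀ p : ℕ, p.Prime → p ≠ ℓ → ∀ z : G, p • z = 0 → red z = 0 → z = 0) :
    ∀ m : ℕ, ¬ ℓ ∣ m → ∀ z : G, m • z = 0 → red z = 0 → z = 0 := by
  intro m
  induction m using Nat.strong_induction_on with
  | _ m ih =>
    intro hm z hmz hz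
    rcases Nat.lt_or_ge m 2 with h2 | h2
    · interval_cases m
      · exact absurd (dvd_zero ℓ) hm
      · simpa using hmz
    · obtain ⟨p, hp, hpm⟩ := Nat.exists_prime_and_dvd (by omega : m ≠ 1)
      obtain ⟨m', rfl⟩ := hpm
      have hm'pos : 0 < m' := by
        rcases Nat.eq_zero_or_pos m' with h | h
        · subst h; simp at h2
        · exact h
      have hpl : p ≠ ℓ := by
        rintro rfl
        exact hm (dvd_mul_right _ _)
      have hm' : ¬ ℓ ∣ m' := fun h => hm (h.mul_left p)
      have hz' : m' • z = 0 := by
        apply hprime p hp hpl (m' • z)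
        · rw [smul_smul]; exact hmz
        · rw [map_nsmul, hz, smul_zero]
      have hlt : m' < p * m' := by
        have := hp.two_le
        nlinarith
      exact ih m' hlt hm' z hz' hz

open ModularCurve in
/-- The frozen S18 statement for all `m` from its PRIME case. -/
theorem s18_of_prime_case (N : ℕ) [NeZero N] {ℓ : ℕ} [Fact ℓ.Prime]
    (A : ValuationSubring (AlgebraicClosure ℚ))
    (hprime : ∀ p : ℕ, p.Prime → ¬ ℓ ∣ p → ∀ z : ModularCurve.JZero N,
      p • z = 0 → ModularCurve.reductionModL A N z = 0 → z = 0)
    (m : ℕ) (hm : ¬ ℓ ∣ m) (z : ModularCurve.JZero N)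
    (hmz : m • z = 0) (hz : ModularCurve.reductionModL A N z = 0) : z = 0 := by
  have hℓ : ℓ.Prime := Fact.out
  refine eq_zero_of_prime_case (ModularCurve.reductionModL A N) hℓ ?_ m hm z hmz hz
  intro p hp hpl
  exact hprime p hp (fun h => hpl ((Nat.prime_dvd_prime_iff_eq hℓ hp).mp h).symm)

end Fermat.Agent.S18.H694
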