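import Mathlib
import Fermat.Agent.S18.H754.KummerSpec

/-!
# S18, Route K, piece P6: the Kummer idempotents (helper694, squad S18/S34)

Proof of `Fermat.Agent.S18.H754.KummerIdemStatement` (frozen spec of helper754):
for `z ^ p = u`, `u ≡ 1 mod ϖ`, the elements `e_η = p⁻¹ ∑_{a<p} η^a z^a` (`η^p = 1`) are
idempotent and pairwise orthogonal modulo `ϖ O'`, sum to `1`, and none of them vanishes
modulo `ϖ O'`.

Math: with `x = η z`, `G = ∑_{a<p} X^a`: `p e_η = G(x)`, `G(x) (x - 1) = u - 1`, so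
`G(x) P(x) ∈ (u - 1) B[z]` for every `P ∈ B[X]` with `P(1) = 0`; and `(u - 1) B[z] ⊆ ϖ O'`.
Non-vanishing: `Tr_{F(z)/F} e_η = 1` because `Tr z^a = 0` for `0 < a < p`.
-/

set_option autoImplicit false

noncomputable section

namespace Fermat.Agent.S18.H694

open Polynomial Fermat.Agent.S18.H754

section general

variable {B : Type*} [CommRing B] [IsDomain B]
  {F : Type*} [Field F] [Algebra B F] [IsFractionRing B F]
  {F' : Type*} [Field F'] [Algebra F F'] [Algebra B F'] [IsScalarTower B F F']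

omit [IsDomain B] [IsFractionRing B F] in
theorem inPiO_add {ϖ : B} (hϖ : Prime ϖ) {y₁ y₂ : F'} (h₁ : InPiO ϖ y₁) (h₂ : InPiO ϖ y₂) :
    InPiO ϖ (y₁ + y₂) := by
  obtain ⟨s₁, hs₁, c₁, hc₁, e₁⟩ := h₁
  obtain ⟨s₂, hs₂, c₂, hc₂, e₂⟩ := h₂
  refine ⟨s₁ * s₂, ?_, algebraMap B F' s₂ * c₁ + algebraMap B F' s₁ * c₂, ?_, ?_⟩
  · rw [Ideal.mem_span_singleton] at hs₁ hs₂ ⊢
    intro h
    rcases hϖ.dvd_or_dvd h with h | h
    · exact hs₁ h
    · exact hs₂ h
  · exact (isIntegral_algebraMap.mul hc₁).add (isIntegral_algebraMap.mul hc₂)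
  · rw [map_mul]
    linear_combination (algebraMap B F' s₂) * e₁ + (algebraMap B F' s₁) * e₂

omit [IsDomain B] [IsFractionRing B F] in
theorem inPiO_zero {ϖ : B} (hϖ : Prime ϖ) : InPiO ϖ (0 : F') := by
  refine ⟨1, ?_, 0, isIntegral_zero, by simp⟩
  rw [Ideal.mem_span_singleton]
  exact fun h => hϖ.not_isUnit (isUnit_of_dvd_one h)

omit [IsDomain B] [IsFractionRing B F] in
/-- `(u - 1) · q zⁱ ∈ ϖ O'`. -/
theorem inPiO_sub_one_mul_monomial {ϖ : B} (hϖ : Prime ϖ) {p : ℕ} (hp0 : p ≠ 0)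
    {u : F} {z : F'} (hz : z ^ p = algebraMap F F' u) (h1 : OneModPi ϖ u) (q : B) (i : ℕ) :
    InPiO ϖ (algebraMap F F' (u - 1) * (algebraMap B F' q * z ^ i)) := by
  obtain ⟨a, s, hs, has, hus⟩ := h1
  obtain ⟨b₀, hb₀⟩ := Ideal.mem_span_singleton'.mp has
  have hus' : algebraMap F F' u * algebraMap B F' s = algebraMap B F' a := by
    rw [IsScalarTower.algebraMap_apply B F F' s, IsScalarTower.algebraMap_apply B F F' a,
      ← map_mul, hus]
  have hsz : IsIntegral B (algebraMap B F' s * z) := by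
    refine ⟨X ^ p - C (s ^ (p - 1) * a), monic_X_pow_sub_C _ hp0, ?_⟩
    have hsp : s ^ p = s ^ (p - 1) * s := by
      rw [← pow_succ, Nat.sub_add_cancel (Nat.one_le_iff_ne_zero.mpr hp0)]
    rw [eval₂_sub, eval₂_X_pow, eval₂_C, mul_pow, hz, map_mul, map_pow, ← hus']
    have : algebraMap B F' s ^ p = algebraMap B F' s ^ (p - 1) * algebraMap B F' s := by
      rw [← map_pow, hsp, map_mul, map_pow]
    rw [this]; ring
  refine ⟨s ^ (i + 1), ?_,
    algebraMap B F' b₀ * (algebraMap B F' q * (algebraMap B F' s * z) ^ i), ?_, ?_⟩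
  · rw [Ideal.mem_span_singleton] at hs ⊢
    exact fun h => hs (hϖ.dvd_of_dvd_pow h)
  · exact isIntegral_algebraMap.mul (isIntegral_algebraMap.mul (hsz.pow i))
  · have hb₀' : algebraMap B F' b₀ * algebraMap B F' ϖ
        = algebraMap B F' a - algebraMap B F' s := by
      rw [← map_mul, hb₀, map_sub]
    rw [map_pow, map_sub, map_one, mul_pow]
    linear_combination (algebraMap B F' q * algebraMap B F' s ^ i * z ^ i) * (hus' - hb₀')

omit [IsDomain B] [IsFractionRing B F] in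
/-- **Lemma A**: `(u - 1) · Q(z) ∈ ϖ O'` for every `Q ∈ B[X]`. -/
theorem inPiO_sub_one_mul_aeval {ϖ : B} (hϖ : Prime ϖ) {p : ℕ} (hp0 : p ≠ 0)
    {u : F} {z : F'} (hz : z ^ p = algebraMap F F' u) (h1 : OneModPi ϖ u) (Q : B[X]) :
    InPiO ϖ (algebraMap F F' (u - 1) * aeval z Q) := by
  induction Q using Polynomial.induction_on' with
  | add P₁ P₂ h₁ h₂ =>
    rw [map_add, mul_add]
    exact inPiO_add hϖ h₁ h₂
  | monomial n a =>
    rw [aeval_monomial]
    exact inPiO_sub_one_mul_monomial hϖ hp0 hz h1 a n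


omit [IsDomain B] [IsFractionRing B F] [Algebra F F'] [IsScalarTower B F F'] in
theorem kummerIdem_eq_aeval (p : ℕ) (η : B) (z : F') :
    kummerIdem p η z
      = (p : F')⁻¹ * aeval (algebraMap B F' η * z) (∑ a ∈ Finset.range p, (X : B[X]) ^ a) := by
  simp [kummerIdem, map_sum, mul_pow]

omit [IsDomain B] [IsFractionRing B F] [Algebra F F'] [IsScalarTower B F F'] in
theorem natCast_inv_eq {p : ℕ} {pinv : B} (hpinv : pinv * (p : B) = 1) :
    ((p : F'))⁻¹ = algebraMap B F' pinv := by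
  have h : algebraMap B F' pinv * (p : F') = 1 := by
    have := congrArg (algebraMap B F') hpinv
    simpa using this
  exact inv_eq_of_mul_eq_one_left h


omit [IsDomain B] [IsFractionRing B F] in
/-- **Lemma B**: with `x = η z`, `G = ∑_{a<p} X^a` and `P(1) = 0`:
`c · G(x) · P(x) ∈ ϖ O'`. -/
theorem inPiO_geom_mul {ϖ : B} (hϖ : Prime ϖ) {p : ℕ} (hp0 : p ≠ 0)
    {u : F} {z : F'} (hz : z ^ p = algebraMap F F' u) (h1 : OneModPi ϖ u)
    {η : B} (hη : η ^ p = 1) (c : B) {P : B[X]} (hP : P.IsRoot 1) :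
    InPiO ϖ (algebraMap B F' c *
      (aeval (algebraMap B F' η * z) (∑ a ∈ Finset.range p, (X : B[X]) ^ a) *
        aeval (algebraMap B F' η * z) P)) := by
  obtain ⟨H, hH⟩ := dvd_iff_isRoot.mpr hP
  have hxp : (algebraMap B F' η * z) ^ p = algebraMap F F' u := by
    rw [mul_pow, ← map_pow, hη, map_one, one_mul, hz]
  have hG : aeval (algebraMap B F' η * z) (∑ a ∈ Finset.range p, (X : B[X]) ^ a) *
      (algebraMap B F' η * z - 1) = algebraMap F F' (u - 1) := by
    rw [map_sum]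
    simp only [map_pow, aeval_X]
    rw [geom_sum_mul, hxp, map_sub, map_one]
  have hcomp : aeval (algebraMap B F' η * z) H = aeval z (H.comp (C η * X)) := by
    rw [aeval_comp]
    simp [aeval_C]
  have key : algebraMap B F' c *
      (aeval (algebraMap B F' η * z) (∑ a ∈ Finset.range p, (X : B[X]) ^ a) *
        aeval (algebraMap B F' η * z) P)
      = algebraMap F F' (u - 1) * aeval z (C c * H.comp (C η * X)) := by
    rw [hH, map_mul (aeval (algebraMap B F' η * z)), map_sub, aeval_X, aeval_C, map_one,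
      map_mul (aeval z), aeval_C, ← hcomp, ← hG]
    ring
  rw [key]
  exact inPiO_sub_one_mul_aeval hϖ hp0 hz h1 _

omit [IsDomain B] [IsFractionRing B F] in
/-- Part (1): idempotency modulo `ϖ O'`. -/
theorem kummerIdem_sq_sub {ϖ : B} (hϖ : Prime ϖ) {p : ℕ} (hp0 : p ≠ 0) (hpu : IsUnit (p : B))
    {u : F} {z : F'} (hz : z ^ p = algebraMap F F' u) (h1 : OneModPi ϖ u)
    {η : B} (hη : η ^ p = 1) :
    InPiO ϖ (kummerIdem p η z * kummerIdem p η z - kummerIdem p η z) := by
  obtain ⟨pinv, hpinv⟩ := hpu.exists_left_inv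
  have hinv : ((p : F'))⁻¹ = algebraMap B F' pinv := natCast_inv_eq hpinv
  have hroot : ((∑ a ∈ Finset.range p, (X : B[X]) ^ a) - C (p : B)).IsRoot 1 := by
    simp [IsRoot.def, eval_finsetSum]
  have := inPiO_geom_mul (F := F) (F' := F') hϖ hp0 hz h1 hη (pinv * pinv) hroot
  have hp1 : algebraMap B F' pinv * (p : F') = 1 := by
    have := congrArg (algebraMap B F') hpinv
    simpa using this
  convert this using 1
  rw [kummerIdem_eq_aeval, hinv, map_sub, aeval_C, map_mul, map_natCast]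
  linear_combination (algebraMap B F' pinv *
    aeval (algebraMap B F' η * z) (∑ a ∈ Finset.range p, (X : B[X]) ^ a)) * hp1

omit [IsFractionRing B F] in
/-- Part (2): orthogonality modulo `ϖ O'`. -/
theorem kummerIdem_mul {ϖ : B} (hϖ : Prime ϖ) {p : ℕ} (hp0 : p ≠ 0) (hpu : IsUnit (p : B))
    {u : F} {z : F'} (hz : z ^ p = algebraMap F F' u) (h1 : OneModPi ϖ u)
    {η η' : B} (hη : η ^ p = 1) (hη' : η' ^ p = 1) (hne : η ≠ η') :
    InPiO ϖ (kummerIdem p η z * kummerIdem p η' z) := by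
  obtain ⟨pinv, hpinv⟩ := hpu.exists_left_inv
  have hinv : ((p : F'))⁻¹ = algebraMap B F' pinv := natCast_inv_eq hpinv
  have hpp : η ^ (p - 1) * η = 1 := by
    rw [← pow_succ, Nat.sub_add_cancel (Nat.one_le_iff_ne_zero.mpr hp0), hη]
  set ξ : B := η' * η ^ (p - 1) with hξ
  have hξη : ξ * η = η' := by rw [hξ, mul_assoc, hpp, mul_one]
  have hξp : ξ ^ p = 1 := by
    rw [hξ, mul_pow, hη', one_mul, ← pow_mul, mul_comm, pow_mul, hη, one_pow]
  have hξ1 : ξ ≠ 1 := by
    intro h
    apply hne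
    rw [← hξη, h, one_mul]
  have hsum : ∑ a ∈ Finset.range p, ξ ^ a = 0 := by
    have h := geom_sum_mul ξ p
    rw [hξp, sub_self] at h
    rcases mul_eq_zero.mp h with h | h
    · exact h
    · exact absurd (sub_eq_zero.mp h) hξ1
  have hroot : ((∑ a ∈ Finset.range p, (X : B[X]) ^ a).comp (C ξ * X)).IsRoot 1 := by
    simp [IsRoot.def, eval_finsetSum, hsum]
  have := inPiO_geom_mul (F := F) (F' := F') hϖ hp0 hz h1 hη (pinv * pinv) hroot
  convert this using 1
  rw [kummerIdem_eq_aeval, kummerIdem_eq_aeval, hinv, aeval_comp]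
  have : aeval (algebraMap B F' η * z) (C ξ * X : B[X]) = algebraMap B F' η' * z := by
    rw [map_mul, aeval_C, aeval_X, ← mul_assoc, ← map_mul, hξη]
  rw [this, map_mul]
  ring

omit [IsFractionRing B F] [Algebra F F'] [IsScalarTower B F F'] in
/-- Part (3): the idempotents sum to `1`. -/
theorem sum_kummerIdem {p : ℕ} (hp : p.Prime) (hpu : IsUnit (p : B))
    {ζ : B} (hζ : IsPrimitiveRoot ζ p) (z : F') :
    ∑ i ∈ Finset.range p, kummerIdem p (ζ ^ i) z = 1 := by
  obtain ⟨pinv, hpinv⟩ := hpu.exists_left_inv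
  have hp1 : algebraMap B F' pinv * (p : F') = 1 := by
    have := congrArg (algebraMap B F') hpinv
    simpa using this
  have hpne : (p : F') ≠ 0 := right_ne_zero_of_mul_eq_one hp1
  simp only [kummerIdem]
  rw [← Finset.mul_sum, Finset.sum_comm]
  have hterm : ∀ a ∈ Finset.range p,
      ∑ i ∈ Finset.range p, algebraMap B F' ((ζ ^ i) ^ a) * z ^ a
        = if a = 0 then (p : F') else 0 := by
    intro a ha
    rw [← Finset.sum_mul, ← map_sum]
    split_ifs with h0
    · subst h0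
      simp
    · have hcop : a.Coprime p := by
        rw [Nat.coprime_comm]
        exact (Nat.Prime.coprime_iff_not_dvd hp).mpr
          (fun hd => h0 (Nat.eq_zero_of_dvd_of_lt hd (Finset.mem_range.mp ha)))
      have hprim := hζ.pow_of_coprime a hcop
      have : ∑ i ∈ Finset.range p, (ζ ^ i) ^ a = 0 := by
        have := hprim.geom_sum_eq_zero hp.one_lt
        simpa [← pow_mul, mul_comm] using this
      rw [this, map_zero, zero_mul]
  rw [Finset.sum_congr rfl hterm, Finset.sum_ite_eq' (Finset.range p) 0 (fun _ => (p : F'))]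
  simp [hp.pos, hpne]

end general

open IntermediateField

section nonvanishing

variable {F : Type*} [Field F] {F' : Type*} [Field F'] [Algebra F F']

/-- `u ^ a` is not a `p`-th power if `u` is not and `0 < a < p`. -/
theorem pow_ne_of_forall_pow_ne {p : ℕ} (hp : p.Prime) {u : F} (hu : ∀ y : F, y ^ p ≠ u)
    {a : ℕ} (ha0 : a ≠ 0) (hap : a < p) : ∀ y : F, y ^ p ≠ u ^ a := by
  intro y hy
  have hu0 : u ≠ 0 := by
    intro h; exact hu 0 (by rw [h, zero_pow hp.ne_zero])
  have hcop : Nat.Coprime a p := by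
    rw [Nat.coprime_comm]
    exact (Nat.Prime.coprime_iff_not_dvd hp).mpr
      (fun hd => ha0 (Nat.eq_zero_of_dvd_of_lt hd hap))
  have hb : (a : ℤ) * Int.gcdA a p + p * Int.gcdB a p = 1 := by
    have h := Int.gcd_eq_gcd_ab a p
    rw [← h]
    have : Int.gcd (a : ℤ) (p : ℤ) = 1 := by
      rw [Int.gcd_natCast_natCast]; exact hcop
    rw [this]; rfl
  apply hu (y ^ (Int.gcdA a p) * u ^ (Int.gcdB a p))
  rw [mul_pow, ← zpow_natCast (y ^ Int.gcdA a p), ← zpow_mul, mul_comm (Int.gcdA a p),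
    zpow_mul, zpow_natCast, hy, ← zpow_natCast (u ^ Int.gcdB a p), ← zpow_mul,
    ← zpow_natCast u a, ← zpow_mul, ← zpow_add₀ hu0]
  conv_rhs => rw [← zpow_one u]
  congr 1
  rw [← hb]; ring

theorem nextCoeff_X_pow_sub_C_eq_zero {p : ℕ} (hp : 2 ≤ p) (c : F) :
    (X ^ p - C c : F[X]).nextCoeff = 0 := by
  rw [nextCoeff, natDegree_X_pow_sub_C]
  rw [if_neg (by omega)]
  rw [coeff_sub, coeff_X_pow, coeff_C, if_neg (by omega), if_neg (by omega), sub_zero]

variable {p : ℕ} {u : F} {z : F'}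

theorem isIntegral_of_pow_eq (hp0 : p ≠ 0) (hz : z ^ p = algebraMap F F' u) : IsIntegral F z :=
  ⟨X ^ p - C u, monic_X_pow_sub_C _ hp0, by simp [hz]⟩

theorem minpoly_gen_pow (hp : p.Prime) (hu : ∀ y : F, y ^ p ≠ u)
    (hz : z ^ p = algebraMap F F' u) {a : ℕ} (ha0 : a ≠ 0) (hap : a < p) :
    minpoly F ((AdjoinSimple.gen F z) ^ a) = X ^ p - C (u ^ a) := by
  symm
  refine minpoly.eq_of_irreducible_of_monic
    (X_pow_sub_C_irreducible_of_prime hp (pow_ne_of_forall_pow_ne hp hu ha0 hap)) ?_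
    (monic_X_pow_sub_C _ hp.ne_zero)
  apply Subtype.ext
  simp only [map_sub, aeval_X_pow, aeval_C]
  push_cast
  rw [AdjoinSimple.coe_gen, ← pow_mul, mul_comm, pow_mul, hz]
  simp

theorem trace_gen_pow (hp : p.Prime) (hu : ∀ y : F, y ^ p ≠ u)
    (hz : z ^ p = algebraMap F F' u) {a : ℕ} (ha0 : a ≠ 0) (hap : a < p) :
    Algebra.trace F F⟮z⟯ ((AdjoinSimple.gen F z) ^ a) = 0 := by
  have : FiniteDimensional F F⟮z⟯ :=
    adjoin.finiteDimensional (isIntegral_of_pow_eq hp.ne_zero hz)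
  rw [trace_eq_finrank_mul_minpoly_nextCoeff, minpoly_gen_pow hp hu hz ha0 hap,
    nextCoeff_X_pow_sub_C_eq_zero hp.two_le, neg_zero, mul_zero]

theorem finrank_adjoin_eq (hp : p.Prime) (hu : ∀ y : F, y ^ p ≠ u)
    (hz : z ^ p = algebraMap F F' u) : Module.finrank F F⟮z⟯ = p := by
  rw [adjoin.finrank (isIntegral_of_pow_eq hp.ne_zero hz)]
  have : minpoly F z = X ^ p - C u := by
    symm
    refine minpoly.eq_of_irreducible_of_monic
      (X_pow_sub_C_irreducible_of_prime hp hu) ?_ (monic_X_pow_sub_C _ hp.ne_zero)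
    simp [hz]
  rw [this, natDegree_X_pow_sub_C]


end nonvanishing

section main4

variable {B : Type*} [CommRing B] [IsDomain B] [IsIntegrallyClosed B]
  {F : Type*} [Field F] [Algebra B F] [IsFractionRing B F]
  {F' : Type*} [Field F'] [Algebra F F'] [Algebra B F'] [IsScalarTower B F F']

/-- Part (4): no Kummer idempotent vanishes modulo `ϖ O'`. -/
theorem not_inPiO_kummerIdem {ϖ : B} (hϖ : Prime ϖ) {p : ℕ} (hp : p.Prime)
    (hpu : IsUnit (p : B)) {u : F} {z : F'} (hz : z ^ p = algebraMap F F' u)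
    (hu : ∀ y : F, y ^ p ≠ u) (η : B) : ¬ InPiO ϖ (kummerIdem p η z) := by
  rintro ⟨s, hs, c, hc, hsc⟩
  obtain ⟨pinv, hpinv⟩ := hpu.exists_left_inv
  have hpF : (algebraMap B F pinv) * (p : F) = 1 := by
    have := congrArg (algebraMap B F) hpinv
    simpa using this
  have hpF0 : (p : F) ≠ 0 := right_ne_zero_of_mul_eq_one hpF
  have hpF'0 : (p : F') ≠ 0 := by
    have : algebraMap F F' (p : F) ≠ 0 := (_root_.map_ne_zero _).mpr hpF0
    rwa [map_natCast] at this
  have hϖF : algebraMap B F ϖ ≠ 0 := by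
    simpa using hϖ.ne_zero
  have hϖF' : algebraMap B F' ϖ ≠ 0 := by
    rw [IsScalarTower.algebraMap_apply B F F']
    simpa using hϖF
  have hfd : FiniteDimensional F F⟮z⟯ :=
    adjoin.finiteDimensional (isIntegral_of_pow_eq hp.ne_zero hz)
  -- the idempotent as an element of `F(z)`
  set g : F⟮z⟯ := AdjoinSimple.gen F z with hg
  set eL : F⟮z⟯ := algebraMap F F⟮z⟯ ((p : F))⁻¹ *
    ∑ a ∈ Finset.range p, algebraMap F F⟮z⟯ (algebraMap B F (η ^ a)) * g ^ a with heL
  have heL' : (eL : F') = kummerIdem p η z := by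
    rw [heL, kummerIdem]
    push_cast
    simp only [hg, AdjoinSimple.coe_gen, ← IsScalarTower.algebraMap_apply B F F']
  have htr_e : Algebra.trace F F⟮z⟯ eL = 1 := by
    rw [heL, ← Algebra.smul_def, map_smul, map_sum]
    have hterm : ∀ a ∈ Finset.range p,
        Algebra.trace F F⟮z⟯ (algebraMap F F⟮z⟯ (algebraMap B F (η ^ a)) * g ^ a)
          = if a = 0 then (p : F) else 0 := by
      intro a ha
      rw [← Algebra.smul_def, map_smul]
      split_ifs with h0
      · subst h0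
        rw [pow_zero, pow_zero, map_one, one_smul]
        have := Algebra.trace_algebraMap (S := F⟮z⟯) (1 : F)
        rw [map_one] at this
        rw [this, finrank_adjoin_eq hp hu hz]
        simp
      · rw [trace_gen_pow hp hu hz h0 (Finset.mem_range.mp ha), smul_zero]
    rw [Finset.sum_congr rfl hterm, Finset.sum_ite_eq' (Finset.range p) 0 (fun _ => (p : F))]
    simp [hp.pos, hpF0]
  -- `c` as an element of `F(z)`
  set r : F := algebraMap B F s / algebraMap B F ϖ with hr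
  set cL : F⟮z⟯ := algebraMap F F⟮z⟯ r * eL with hcL
  have hcL' : (cL : F') = c := by
    rw [hcL]
    push_cast
    rw [heL', hr, map_div₀,
      ← IsScalarTower.algebraMap_apply B F F', ← IsScalarTower.algebraMap_apply B F F']
    field_simp
    rw [hsc]
  have hint : IsIntegral B cL := by
    have hinj : Function.Injective ((F⟮z⟯.val).restrictScalars B) := Subtype.val_injective
    refine (isIntegral_algHom_iff ((F⟮z⟯.val).restrictScalars B) hinj).mp ?_
    have : ((F⟮z⟯.val).restrictScalars B) cL = c := hcL'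
    rw [this]
    exact hc
  have htr_c : Algebra.trace F F⟮z⟯ cL = r := by
    rw [hcL, ← Algebra.smul_def, map_smul, htr_e, smul_eq_mul, mul_one]
  have h2 : IsIntegral B (Algebra.trace F F⟮z⟯ cL) := Algebra.isIntegral_trace hint
  rw [htr_c, IsIntegrallyClosed.isIntegral_iff] at h2
  obtain ⟨b, hb⟩ := h2
  apply hs
  rw [Ideal.mem_span_singleton]
  refine ⟨b, ?_⟩
  apply IsFractionRing.injective B F
  rw [map_mul, hb, hr]
  field_simp

end main4

/-- **P6**: the frozen statement `KummerIdemStatement` of helper754's spec. -/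
theorem kummerIdemStatement : KummerIdemStatement := by
  intro B _ _ _ F _ _ _ F' _ _ _ _ ϖ hϖ p hp hpu u z hz hu h1
  refine ⟨fun η hη => ?_, fun η η' hη hη' hne => ?_, fun ζ hζ => ?_, fun η _ => ?_⟩
  · exact kummerIdem_sq_sub hϖ hp.ne_zero hpu hz h1 hη
  · exact kummerIdem_mul hϖ hp.ne_zero hpu hz h1 hη hη' hne
  · exact sum_kummerIdem hp hpu hζ z
  · exact not_inPiO_kummerIdem hϖ hp hpu hz hu η

end Fermat.Agent.S18.H694

end
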